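/-
S26, block DEG (architect helper279): functoriality of `ffMap`, first properties of `gdeg`.
-/
import Fermat.Agent.S26.DegSpec

set_option autoImplicit false

universe u

open CategoryTheory CategoryTheory.Limits AlgebraicGeometry

namespace Fermat.Agent.S26.Deg

variable {X Y Z : Scheme.{u}}

/-- The stalk map of `φ` at `y`, with target point `x = φ y`. -/
noncomputable def stalkTo (φ : Y ⟶ X) (y : Y) (x : X) (h : φ y = x) :
    X.presheaf.stalk x ⟶ Y.presheaf.stalk y :=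
  (X.presheaf.stalkCongr (.of_eq h.symm)).hom ≫ φ.stalkMap y

theorem stalkTo_rfl (φ : Y ⟶ X) (y : Y) : stalkTo φ y (φ y) rfl = φ.stalkMap y := by
  simp [stalkTo, TopCat.Presheaf.stalkCongr]

theorem stalkTo_comp (ψ : Z ⟶ Y) (φ : Y ⟶ X) (z : Z) (y : Y) (x : X) (hψ : ψ z = y)
    (hφ : φ y = x) (h : (ψ ≫ φ) z = x) :
    stalkTo (ψ ≫ φ) z x h = stalkTo φ y x hφ ≫ stalkTo ψ z y hψ := by
  subst hψ
  subst hφ
  rw [stalkTo_rfl, stalkTo_rfl, ← Scheme.Hom.stalkMap_comp]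
  exact stalkTo_rfl _ _

theorem germ_stalkTo (φ : Y ⟶ X) (y : Y) (x : X) (h : φ y = x) (U : X.Opens) (hx : x ∈ U) :
    X.presheaf.germ U x hx ≫ stalkTo φ y x h =
      φ.app U ≫ Y.presheaf.germ (φ ⁻¹ᵁ U) y (by subst h; exact hx) := by
  subst h
  rw [stalkTo_rfl, Scheme.Hom.germ_stalkMap]

variable [IsIntegral X] [IsIntegral Y] [IsIntegral Z]

theorem ffMap_eq (φ : Y ⟶ X) (h : Dom φ) :
    ffMap φ h = (stalkTo φ (genericPoint Y) (genericPoint X) h).hom := rfl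

theorem dom_comp (ψ : Z ⟶ Y) (φ : Y ⟶ X) (hψ : Dom ψ) (hφ : Dom φ) : Dom (ψ ≫ φ) := by
  unfold Dom at *
  rw [Scheme.Hom.comp_apply, hψ, hφ]

theorem ffMap_comp (ψ : Z ⟶ Y) (φ : Y ⟶ X) (hψ : Dom ψ) (hφ : Dom φ) (h : Dom (ψ ≫ φ)) :
    ffMap (ψ ≫ φ) h = (ffMap ψ hψ).comp (ffMap φ hφ) := by
  rw [ffMap_eq, ffMap_eq, ffMap_eq, stalkTo_comp ψ φ _ _ _ hψ hφ h]
  rfl

/-- `ffMap` on germs of sections. -/
theorem ffMap_germ (φ : Y ⟶ X) (h : Dom φ) (U : X.Opens) [Nonempty U] [Nonempty (φ ⁻¹ᵁ U)]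
    (s : Γ(X, U)) :
    ffMap φ h (X.germToFunctionField U s) = Y.germToFunctionField (φ ⁻¹ᵁ U) (φ.app U s) := by
  rw [ffMap_eq]
  exact congrArg (fun f => f.hom s)
    (germ_stalkTo φ (genericPoint Y) (genericPoint X) h U
      (((genericPoint_spec X).mem_open_set_iff U.isOpen).mpr (by simpa using ‹Nonempty U›)))

theorem gdeg_of_dom (φ : Y ⟶ X) (h : Dom φ) :
    gdeg φ = @Module.finrank X.functionField Y.functionField _ _
      (ffMap φ h).toAlgebra.toModule := by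
  unfold gdeg
  exact dif_pos h

theorem gdeg_of_not_dom (φ : Y ⟶ X) (h : ¬ Dom φ) : gdeg φ = 0 := by
  unfold gdeg
  exact dif_neg h

theorem dom_of_gdeg_pos (φ : Y ⟶ X) (h : 0 < gdeg φ) : Dom φ := by
  by_contra h'
  rw [gdeg_of_not_dom φ h'] at h
  exact lt_irrefl _ h

theorem dom_of_isOpenImmersion (φ : Y ⟶ X) [IsOpenImmersion φ] : Dom φ :=
  genericPoint_eq_of_isOpenImmersion φ

theorem gdeg_eq_one_of_bijective (φ : Y ⟶ X) (h : Dom φ)
    (hb : Function.Surjective (ffMap φ h)) : gdeg φ = 1 := by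
  rw [gdeg_of_dom φ h]
  let _ : Algebra X.functionField Y.functionField := (ffMap φ h).toAlgebra
  change Module.finrank X.functionField Y.functionField = 1
  rw [finrank_eq_one_iff_of_nonzero' (1 : Y.functionField) one_ne_zero]
  intro w
  obtain ⟨c, hc⟩ := hb w
  exact ⟨c, by rw [Algebra.smul_def, mul_one]; exact hc⟩

theorem gdeg_of_isOpenImmersion (φ : Y ⟶ X) [IsOpenImmersion φ] : gdeg φ = 1 := by
  refine gdeg_eq_one_of_bijective φ (dom_of_isOpenImmersion φ) ?_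
  rw [ffMap_eq]
  have : IsIso (stalkTo φ (genericPoint Y) (genericPoint X) (dom_of_isOpenImmersion φ)) := by
    unfold stalkTo
    infer_instance
  exact (ConcreteCategory.bijective_of_isIso _).2

end Fermat.Agent.S26.Deg
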