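/-
S26, block DEG (architect helper279): the tower law (G1), invariance of `gdeg` under isomorphisms.
-/
import Fermat.Agent.S26.Deg.FF

set_option autoImplicit false

universe u

open CategoryTheory CategoryTheory.Limits AlgebraicGeometry

namespace Fermat.Agent.S26.Deg

variable {X Y Z : Scheme.{u}} [IsIntegral X] [IsIntegral Y] [IsIntegral Z]

theorem gdeg_comp (ψ : Z ⟶ Y) (φ : Y ⟶ X) (hψ : Dom ψ) (hφ : Dom φ) :
    gdeg (ψ ≫ φ) = gdeg ψ * gdeg φ := by
  have h := dom_comp ψ φ hψ hφ
  rw [gdeg_of_dom _ h, gdeg_of_dom _ hψ, gdeg_of_dom _ hφ]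
  let _ : Algebra X.functionField Y.functionField := (ffMap φ hφ).toAlgebra
  let _ : Algebra Y.functionField Z.functionField := (ffMap ψ hψ).toAlgebra
  let _ : Algebra X.functionField Z.functionField := (ffMap (ψ ≫ φ) h).toAlgebra
  have : IsScalarTower X.functionField Y.functionField Z.functionField :=
    IsScalarTower.of_algebraMap_eq' (ffMap_comp ψ φ hψ hφ h)
  change Module.finrank X.functionField Z.functionField =
    Module.finrank Y.functionField Z.functionField * Module.finrank X.functionField Y.functionField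
  rw [mul_comm]
  exact (Module.finrank_mul_finrank _ _ _).symm

/-- G1 -/
theorem towerNode : TowerNode.{u} := fun ψ φ hψ hφ => gdeg_comp ψ φ hψ hφ

theorem dom_of_dom_comp (ψ : Z ⟶ Y) (φ : Y ⟶ X) (hψ : Dom ψ) (h : Dom (ψ ≫ φ)) : Dom φ := by
  unfold Dom at *
  rwa [Scheme.Hom.comp_apply, hψ] at h

/-- Composition with an open immersion (e.g. an isomorphism) on the source does not change the
degree. -/
theorem gdeg_openImmersion_comp (ψ : Z ⟶ Y) [IsOpenImmersion ψ] (φ : Y ⟶ X) :
    gdeg (ψ ≫ φ) = gdeg φ := by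
  by_cases hφ : Dom φ
  · rw [gdeg_comp ψ φ (dom_of_isOpenImmersion ψ) hφ, gdeg_of_isOpenImmersion, one_mul]
  · rw [gdeg_of_not_dom φ hφ, gdeg_of_not_dom]
    exact fun h => hφ (dom_of_dom_comp ψ φ (dom_of_isOpenImmersion ψ) h)

variable {K : Type u} [Field K]

/-- field `deg_eq` of `IsoNode` -/
theorem deg_eq_of_iso {𝔸 : AbVar K} (B B' : Based 𝔸) (h : Nonempty (Based.Iso B B')) :
    B.deg = B'.deg := by
  obtain ⟨i⟩ := h
  unfold Based.deg
  rw [← i.τ]
  exact gdeg_openImmersion_comp i.e.hom B'.τ.hom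

end Fermat.Agent.S26.Deg
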