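/-
S26, block DEG (architect helper279), leaf D9: a proper morphism which is etale on a nonempty open and
has a single point over the generic point is etale over a dense open of the target.
-/
import Fermat.Agent.S26.Deg.Tower

set_option autoImplicit false

universe u

open CategoryTheory CategoryTheory.Limits AlgebraicGeometry

namespace Fermat.Agent.S26.Deg

variable {K : Type u} [Field K]

/-- D9 (`Deg/EtRes.lean`) -/
theorem exists_open_etale_restrict {X Y : Scheme.{u}} [IsIntegral X] [IsIntegral Y] (φ : Y ⟶ X)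
    [IsProper φ] (E : Y.Opens) (hE : (E : Set Y).Nonempty) (hEt : Etale (E.ι ≫ φ))
    (hfib : φ ⁻¹' {genericPoint X} = {genericPoint Y}) :
    ∃ U : X.Opens, genericPoint X ∈ U ∧ Etale (φ ∣_ U) := by
  have hηE : genericPoint Y ∈ E :=
    ((genericPoint_spec Y).mem_open_set_iff E.isOpen).mpr (by simpa using hE)
  let U : X.Opens := ⟨(φ '' (E : Set Y)ᶜ)ᶜ, (φ.isClosedMap _ E.isOpen.isClosed_compl).isOpen_compl⟩
  have hU : ∀ x : X, x ∈ U ↔ x ∉ φ '' (E : Set Y)ᶜ := fun x => Iff.rfl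
  have hle : φ ⁻¹ᵁ U ≤ E := by
    intro y hy
    by_contra hyE
    exact ((hU _).1 hy) ⟨y, hyE, rfl⟩
  refine ⟨U, ?_, ?_⟩
  · rw [hU]
    rintro ⟨y, hyE, hy⟩
    have h1 : y ∈ φ ⁻¹' {genericPoint X} := hy
    rw [hfib] at h1
    rw [Set.mem_singleton_iff.1 h1] at hyE
    exact hyE hηE
  · have h1 : (φ ∣_ U) ≫ U.ι = Y.homOfLE hle ≫ (E.ι ≫ φ) := by
      rw [morphismRestrict_ι, ← Category.assoc, Scheme.homOfLE_ι]
    have h2 : Etale ((φ ∣_ U) ≫ U.ι) := by
      rw [h1]
      infer_instance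
    exact Etale.of_comp (φ ∣_ U) U.ι

end Fermat.Agent.S26.Deg
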