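/-
S26, block DEG (architect helper279), leaf D10 (helper250): etale at a point implies dominant of finite
positive degree.
-/
import Fermat.Agent.S26.Deg.Tower

set_option autoImplicit false

universe u

open CategoryTheory CategoryTheory.Limits AlgebraicGeometry

namespace Fermat.Agent.S26.Deg

private theorem etalePos_stalkTo {X Y : Scheme.{u}} (ψ : Y ⟶ X) [LocallyOfFiniteType ψ]
    [FormallyUnramified ψ] (y : Y) (x : X) (h : ψ y = x) :
    (stalkTo ψ y x h).hom.EssFiniteType ∧ (stalkTo ψ y x h).hom.FormallyUnramified := by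
  subst h
  rw [stalkTo_rfl]
  exact ⟨LocallyOfFiniteType.stalkMap ψ y, FormallyUnramified.stalkMap ψ y⟩

private theorem etalePos_step {X Y : Scheme.{u}} [IsIntegral X] [IsIntegral Y] (ψ : Y ⟶ X)
    [Etale ψ] : Dom ψ ∧ 0 < gdeg ψ := by
  have hdom : Dom ψ := by
    have hg : GeneralizingMap ψ := Flat.generalizingMap ψ
    have h1 : genericPoint X ⤳ ψ (genericPoint Y) := (genericPoint_spec X).specializes trivial
    obtain ⟨y', hy', hy'e⟩ := hg h1
    have h2 : genericPoint Y ⤳ y' := (genericPoint_spec Y).specializes trivial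
    have h3 : y' = genericPoint Y := (hy'.antisymm h2).eq
    rw [h3] at hy'e
    exact hy'e
  refine ⟨hdom, ?_⟩
  rw [gdeg_of_dom ψ hdom]
  obtain ⟨h1, h2⟩ := etalePos_stalkTo ψ (genericPoint Y) (genericPoint X) hdom
  let _ : Algebra X.functionField Y.functionField := (ffMap ψ hdom).toAlgebra
  have i1 : Algebra.EssFiniteType X.functionField Y.functionField := by
    rw [← RingHom.essFiniteType_algebraMap, RingHom.algebraMap_toAlgebra]
    exact h1
  have i2 : Algebra.FormallyUnramified X.functionField Y.functionField := by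
    rw [← RingHom.formallyUnramified_algebraMap, RingHom.algebraMap_toAlgebra]
    exact h2
  have i3 : Module.Finite X.functionField Y.functionField :=
    Algebra.FormallyUnramified.finite_of_free _ _
  exact Module.finrank_pos

/-- D10 (`Deg/EtalePos.lean`) -/
theorem etalePosNode : EtalePosNode.{u} := by
  intro X Y _ _ φ y hy
  obtain ⟨U, hyU, hEt⟩ := hy
  have : Nonempty U := ⟨⟨y, hyU⟩⟩
  obtain ⟨hd, hpos⟩ := etalePos_step (U.ι ≫ φ)
  refine ⟨dom_of_dom_comp U.ι φ (dom_of_isOpenImmersion _) hd, ?_⟩
  rwa [gdeg_openImmersion_comp] at hpos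

end Fermat.Agent.S26.Deg
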