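/-
S26, block DEG (architect helper279), leaf D8: points of `Y` over a point `a` of `X` are the
sections of the fibre.
-/
import Fermat.Agent.S26.Deg.Tower

set_option autoImplicit false

universe u

open CategoryTheory CategoryTheory.Limits AlgebraicGeometry

namespace Fermat.Agent.S26.Deg

variable {K : Type u} [Field K]

/-- D8 (`Deg/FibPts.lean`) -/
theorem card_fibre_eq {X Y : Scheme.{u}} (φ : Y ⟶ X) (a : SK K ⟶ X) :
    Nat.card {b : SK K ⟶ Y // b ≫ φ = a} =
      Nat.card {s : SK K ⟶ pullback φ a // s ≫ pullback.snd φ a = 𝟙 _} := by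
  refine Nat.card_congr
    { toFun := fun b => ⟨pullback.lift b.1 (𝟙 _) (by rw [b.2, Category.id_comp]),
        pullback.lift_snd _ _ _⟩
      invFun := fun s => ⟨s.1 ≫ pullback.fst φ a, by
        rw [Category.assoc, pullback.condition, ← Category.assoc, s.2, Category.id_comp]⟩
      left_inv := fun b => Subtype.ext (pullback.lift_fst _ _ _)
      right_inv := fun s => Subtype.ext ?_ }
  apply pullback.hom_ext
  · exact pullback.lift_fst _ _ _
  · rw [pullback.lift_snd, s.2]

end Fermat.Agent.S26.Deg
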