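/-
S26, block DEG (architect helper279), leaf D2: generic freeness of a finite algebra over a noetherian
domain: the fibres over a dense open have dimension the degree of the extension of fraction fields.
Mathlib only.
-/
import Mathlib

set_option autoImplicit false

universe u

namespace Fermat.Agent.S26.Deg

open scoped nonZeroDivisors TensorProduct

/-- D2 -/
theorem exists_ne_zero_finrank_eq (B C F E : Type u) [CommRing B] [IsDomain B] [IsNoetherianRing B]
    [CommRing C] [IsDomain C] [Field F] [Field E] [Algebra B C] [Module.Finite B C] [Algebra B F]
    [IsFractionRing B F] [Algebra C E] [IsFractionRing C E] [Algebra F E] [Algebra B E]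
    [IsScalarTower B F E] [IsScalarTower B C E] :
    ∃ b : B, b ≠ 0 ∧ ∀ (k T : Type u) [Field k] [CommRing T] [Algebra B k] [Algebra C T]
      [Algebra k T] [Algebra B T] [IsScalarTower B C T] [IsScalarTower B k T]
      [Algebra.IsPushout B k C T], algebraMap B k b ≠ 0 →
        Module.finrank k T = Module.finrank F E := by
  have hinj : Function.Injective (algebraMap B C) := by
    have h1 : Function.Injective (algebraMap B E) := by
      rw [IsScalarTower.algebraMap_eq B F E]
      exact (algebraMap F E).injective.comp (IsFractionRing.injective B F)
    rw [IsScalarTower.algebraMap_eq B C E] at h1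
    exact Function.Injective.of_comp h1
  have : FaithfulSMul B C := (faithfulSMul_iff_algebraMap_injective B C).2 hinj
  have : Algebra.IsIntegral B C := inferInstance
  have : Algebra.IsAlgebraic B C := inferInstance
  have : Module.FinitePresentation B C := Module.finitePresentation_of_finite B C
  obtain ⟨r, hr, hfree, hrank⟩ := Module.FinitePresentation.exists_free_localizedModule_powers
    (nonZeroDivisors B) (IsScalarTower.toAlgHom B C E).toLinearMap F
  refine ⟨r, nonZeroDivisors.ne_zero hr, ?_⟩
  intro k T _ _ _ _ _ _ _ _ hpo hk
  let φ : Localization (Submonoid.powers r) →+* k :=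
    IsLocalization.Away.lift r (g := algebraMap B k) (isUnit_iff_ne_zero.2 hk)
  have : Nontrivial (Localization (Submonoid.powers r)) := φ.domain_nontrivial
  let _ : Algebra (Localization (Submonoid.powers r)) k := φ.toAlgebra
  have : IsScalarTower B (Localization (Submonoid.powers r)) k :=
    IsScalarTower.of_algebraMap_eq' (IsLocalization.Away.lift_comp r _).symm
  have h1 : IsBaseChange (Localization (Submonoid.powers r))
      (LocalizedModule.mkLinearMap (Submonoid.powers r) C) :=
    LocalizedModule.isBaseChange (Submonoid.powers r) C
  have h2 : IsBaseChange k (TensorProduct.mk (Localization (Submonoid.powers r)) k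
      (LocalizedModule (Submonoid.powers r) C) 1) :=
    TensorProduct.isBaseChange _ _ _
  have h3 := IsBaseChange.comp h1 h2
  have hT : IsBaseChange k (IsScalarTower.toAlgHom B C T).toLinearMap := hpo.out
  rw [← hrank, ← (h3.equiv.symm ≪≫ₗ hT.equiv).finrank_eq]
  exact Module.finrank_baseChange

end Fermat.Agent.S26.Deg
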