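/-
S26, block DEG (architect helper279), leaf D3: the generic freeness statement D2 in the language of
`CommRingCat` and bare ring homomorphisms (the form used by `Deg/Fibre.lean`).
-/
import Fermat.Agent.S26.Deg.Alg

set_option autoImplicit false

universe u

open CategoryTheory CategoryTheory.Limits

namespace Fermat.Agent.S26.Deg

/-- D3 (`Deg/AlgCat.lean`) -/
theorem exists_ne_zero_finrank_eq_cat {B C : CommRingCat.{u}} (β : B ⟶ C) [IsDomain B]
    [IsNoetherianRing B] [IsDomain C] (hβ : β.hom.Finite) {F E : Type u} [Field F] [Field E]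
    (iB : B →+* F) (iC : C →+* E) (ε : F →+* E) (hB : @IsFractionRing B _ F _ iB.toAlgebra)
    (hC : @IsFractionRing C _ E _ iC.toAlgebra) (hcomm : ε.comp iB = iC.comp β.hom) :
    ∃ b : B, b ≠ 0 ∧ ∀ (K : Type u) [Field K] (T : CommRingCat.{u}) (α : B ⟶ .of K) (γ : C ⟶ T)
      (κ : .of K ⟶ T), IsPushout β α γ κ → α.hom b ≠ 0 →
        @Module.finrank K T _ _ κ.hom.toAlgebra.toModule =
          @Module.finrank F E _ _ ε.toAlgebra.toModule := by
  let _ : Algebra B C := β.hom.toAlgebra
  let _ : Algebra B F := iB.toAlgebra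
  let _ : Algebra C E := iC.toAlgebra
  let _ : Algebra F E := ε.toAlgebra
  let _ : Algebra B E := (ε.comp iB).toAlgebra
  have : IsScalarTower B F E := IsScalarTower.of_algebraMap_eq' rfl
  have : IsScalarTower B C E := IsScalarTower.of_algebraMap_eq' hcomm
  have : Module.Finite B C := hβ
  have : IsFractionRing B F := hB
  have : IsFractionRing C E := hC
  obtain ⟨b, hb0, hb⟩ := exists_ne_zero_finrank_eq B C F E
  refine ⟨b, hb0, ?_⟩
  intro K _ T α γ κ hpo hα
  let _ : Algebra B K := α.hom.toAlgebra
  let _ : Algebra C T := γ.hom.toAlgebra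
  let _ : Algebra K T := κ.hom.toAlgebra
  let _ : Algebra B T := (γ.hom.comp β.hom).toAlgebra
  have : IsScalarTower B C T := IsScalarTower.of_algebraMap_eq' rfl
  have : IsScalarTower B K T := IsScalarTower.of_algebraMap_eq' (by
    have := congrArg CommRingCat.Hom.hom hpo.w
    exact this)
  have hP : Algebra.IsPushout B C K T := CommRingCat.isPushout_iff_isPushout.mp hpo
  have : Algebra.IsPushout B K C T := hP.symm
  exact hb K T hα

end Fermat.Agent.S26.Deg
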