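/-
S26, block DEG (architect helper279), leaf D4: a morphism which is finite over an open `V` is finite
over every affine open `W ≤ V`, in terms of sections.
-/
import Fermat.Agent.S26.Deg.Tower

set_option autoImplicit false

universe u

open CategoryTheory CategoryTheory.Limits AlgebraicGeometry

namespace Fermat.Agent.S26.Deg

/-- the restriction to a smaller open is a base change of the restriction to the bigger one -/
private theorem finApp_isPullback {X Y : Scheme.{u}} (φ : Y ⟶ X) (V W : X.Opens) (hWV : W ≤ V) :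
    IsPullback (φ ∣_ W) (Y.homOfLE (φ.preimage_mono hWV)) (X.homOfLE hWV) (φ ∣_ V) := by
  refine IsPullback.of_bot ?_ (morphismRestrict_homOfLE φ W V hWV) (isPullback_morphismRestrict φ V)
  simpa using isPullback_morphismRestrict φ W

private theorem finApp_isFinite {X Y : Scheme.{u}} (φ : Y ⟶ X) (V W : X.Opens)
    (hV : IsFinite (φ ∣_ V)) (hWV : W ≤ V) : IsFinite (φ ∣_ W) :=
  MorphismProperty.of_isPullback (P := @IsFinite) (finApp_isPullback φ V W hWV).flip hV

/-- D4 (`Deg/FinApp.lean`) -/
theorem finite_app_of_isFinite_restrict {X Y : Scheme.{u}} (φ : Y ⟶ X) (V W : X.Opens)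
    (hV : IsFinite (φ ∣_ V)) (hW : IsAffineOpen W) (hWV : W ≤ V) :
    IsAffineOpen (φ ⁻¹ᵁ W) ∧ (φ.app W).hom.Finite := by
  have hfin : IsFinite (φ ∣_ W) := finApp_isFinite φ V W hV hWV
  have hWa : IsAffine W.toScheme := hW
  refine ⟨isAffine_of_isAffineHom (φ ∣_ W), ?_⟩
  have h1 : ((φ ∣_ W).appTop).hom.Finite := IsFinite.finite_app (φ ∣_ W) ⊤ (isAffineOpen_top _)
  rw [← Scheme.Hom.resLE_eq_morphismRestrict,
    RingHom.finite_respectsIso.arrow_mk_iso_iff (arrowResLEAppIso φ W _ le_rfl),
    Scheme.Hom.appLE_eq_app] at h1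
  exact h1

end Fermat.Agent.S26.Deg
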