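/-
S26, block DEG, leaf D1 (helper204): if the generic degree of `φ` is positive, the only point over
the generic point is the generic point.
-/
import Fermat.Agent.S26.Deg.Tower

set_option autoImplicit false

universe u

open CategoryTheory CategoryTheory.Limits AlgebraicGeometry

namespace Fermat.Agent.S26.Deg

variable {K : Type u} [Field K]

/-- compatibility of `stalkTo` with specialisation in the source -/
private theorem genFibre_stalkTo_specializes {X Y : Scheme.{u}} (φ : Y ⟶ X) (y y' : Y) (x : X)
    (h : φ y = x) (h' : φ y' = x) (s : y ⤳ y') :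
    stalkTo φ y' x h' ≫ Y.presheaf.stalkSpecializes s = stalkTo φ y x h := by
  refine TopCat.Presheaf.stalk_hom_ext _ fun U hx => ?_
  rw [← Category.assoc, germ_stalkTo, germ_stalkTo, Category.assoc,
    TopCat.Presheaf.germ_stalkSpecializes]

/-- a point whose stalk is a field is the generic point -/
private theorem genFibre_eq_genericPoint {Y : Scheme.{u}} [IsIntegral Y] (ξ : Y)
    (hA : IsField (Y.presheaf.stalk ξ)) : ξ = genericPoint Y := by
  have h1 : ξ ∈ Set.range (Y.fromSpecStalk ξ) := by
    rw [Scheme.range_fromSpecStalk]
    exact specializes_rfl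
  have h2 : genericPoint Y ∈ Set.range (Y.fromSpecStalk ξ) := by
    rw [Scheme.range_fromSpecStalk]
    exact (genericPoint_spec Y).specializes trivial
  obtain ⟨a, ha⟩ := h1
  obtain ⟨b, hb⟩ := h2
  let := hA.toField
  have : Subsingleton (PrimeSpectrum (Y.presheaf.stalk ξ)) := inferInstance
  rw [← ha, ← hb]
  exact congrArg _ (Subsingleton.elim (α := PrimeSpectrum (Y.presheaf.stalk ξ)) a b)

/-- D1 (`Deg/GenFibre.lean`) -/
theorem preimage_genericPoint {X Y : Scheme.{u}} [IsIntegral X] [IsIntegral Y] (φ : Y ⟶ X)
    (h : 0 < gdeg φ) : φ ⁻¹' {genericPoint X} = {genericPoint Y} := by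
  have hdom : Dom φ := dom_of_gdeg_pos φ h
  apply Set.Subset.antisymm
  · intro ξ hξ
    have hξ' : φ ξ = genericPoint X := hξ
    rw [Set.mem_singleton_iff]
    apply genFibre_eq_genericPoint
    let ρ : X.functionField →+* Y.presheaf.stalk ξ := (stalkTo φ ξ (genericPoint X) hξ').hom
    have hcompat : (algebraMap (Y.presheaf.stalk ξ) Y.functionField).comp ρ = ffMap φ hdom := by
      rw [ffMap_eq, ← genFibre_stalkTo_specializes φ (genericPoint Y) ξ (genericPoint X) hdom hξ'
        ((genericPoint_spec Y).specializes trivial)]
      rfl
    let a1 : Algebra X.functionField Y.functionField := (ffMap φ hdom).toAlgebra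
    let a2 : Algebra X.functionField (Y.presheaf.stalk ξ) := ρ.toAlgebra
    have : IsScalarTower X.functionField (Y.presheaf.stalk ξ) Y.functionField :=
      IsScalarTower.of_algebraMap_eq' hcompat.symm
    have hpos : 0 < Module.finrank X.functionField Y.functionField := by
      rw [gdeg_of_dom φ hdom] at h
      exact h
    have : Module.Finite X.functionField Y.functionField := Module.finite_of_finrank_pos hpos
    have : Algebra.IsIntegral X.functionField Y.functionField := inferInstance
    have : Algebra.IsIntegral X.functionField (Y.presheaf.stalk ξ) := by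
      refine ⟨fun a => ?_⟩
      have := Algebra.IsIntegral.isIntegral (R := X.functionField)
        (algebraMap (Y.presheaf.stalk ξ) Y.functionField a)
      exact (isIntegral_algebraMap_iff
        (IsFractionRing.injective (Y.presheaf.stalk ξ) Y.functionField)).1 this
    exact isField_of_isIntegral_of_isField' (R := X.functionField) (Field.toIsField _)
  · intro ξ hξ
    rw [Set.mem_singleton_iff] at hξ
    subst hξ
    exact hdom

end Fermat.Agent.S26.Deg
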