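/-
S26, block DEG, leaf D5: the coordinate ring of the fibre over a `K`-point is a pushout.
-/
import Fermat.Agent.S26.Deg.Tower

set_option autoImplicit false

universe u

open CategoryTheory CategoryTheory.Limits AlgebraicGeometry

namespace Fermat.Agent.S26.Deg

variable {K : Type u} [Field K]

private theorem push_top_le {X : Scheme.{u}} (W : X.Opens) (a : SK K ⟶ X) (ha : a (cpt K) ∈ W) :
    (⊤ : (SK K).Opens) ≤ a ⁻¹ᵁ W := by
  intro t _
  have : t = cpt K := Subsingleton.elim _ _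
  rw [this]
  exact ha

/-- D5 (`Deg/Push.lean`) -/
theorem fibre_isPushout {X Y : Scheme.{u}} (φ : Y ⟶ X) (W : X.Opens) (hW : IsAffineOpen W)
    (hW' : IsAffineOpen (φ ⁻¹ᵁ W)) (a : SK K ⟶ X) (ha : a (cpt K) ∈ W) :
    ∃ (α : Γ(X, W) ⟶ .of K) (γ : Γ(Y, φ ⁻¹ᵁ W) ⟶ Γ(pullback φ a, ⊤)),
      IsPushout (φ.app W) α γ
        ((Scheme.ΓSpecIso (.of K)).inv ≫ (pullback.snd φ a).appTop) ∧
      ∀ b : Γ(X, W), a (cpt K) ∈ X.basicOpen b → α.hom b ≠ 0 := by
  have hUST : (⊤ : (SK K).Opens) ≤ a ⁻¹ᵁ W := push_top_le W a ha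
  have hUSX : φ ⁻¹ᵁ W ≤ φ ⁻¹ᵁ W := le_rfl
  have hUY : (⊤ : (pullback φ a).Opens) =
      pullback.fst φ a ⁻¹ᵁ (φ ⁻¹ᵁ W) ⊓ pullback.snd φ a ⁻¹ᵁ ⊤ := by
    rw [← Scheme.Hom.comp_preimage, pullback.condition, Scheme.Hom.comp_preimage]
    have : a ⁻¹ᵁ W = ⊤ := top_le_iff.1 hUST
    rw [this]
    simp
  have H := IsPullback.of_hasPullback φ a
  have hiso := isIso_pushoutSection_of_isAffineOpen H hUST hUSX hUY hW (isAffineOpen_top _) hW'
  have hpo := (isIso_pushoutSection_iff H hUST hUSX hUY).mp hiso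
  refine ⟨a.appLE W ⊤ hUST ≫ (Scheme.ΓSpecIso (.of K)).hom,
    (pullback.fst φ a).appLE (φ ⁻¹ᵁ W) ⊤ (hUY.le.trans inf_le_left), ?_, ?_⟩
  · refine IsPushout.of_iso hpo (Iso.refl _) (Iso.refl _) (Scheme.ΓSpecIso (.of K)) (Iso.refl _)
      ?_ ?_ ?_ ?_
    · simp [Scheme.Hom.appLE_eq_app]
    · simp
    · simp
    · simp [Scheme.Hom.appTop, Scheme.Hom.app_eq_appLE]
  · intro b hb h0
    have h1 : (a.appLE W ⊤ hUST).hom b = 0 := by
      have hinj : Function.Injective (Scheme.ΓSpecIso (CommRingCat.of K)).hom.hom :=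
        (ConcreteCategory.bijective_of_isIso (Scheme.ΓSpecIso (CommRingCat.of K)).hom).1
      apply hinj
      rw [map_zero]
      exact h0
    have h2 : cpt K ∈ a ⁻¹ᵁ X.basicOpen b := hb
    rw [Scheme.preimage_basicOpen] at h2
    have h3 : cpt K ∈ (SK K).basicOpen ((a.appLE W ⊤ hUST).hom b) := by
      have h4 : (a.appLE W ⊤ hUST).hom b
          = ((SK K).presheaf.map (homOfLE hUST).op).hom ((a.app W).hom b) := by
        rw [Scheme.Hom.appLE]
        rfl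
      rw [h4, Scheme.basicOpen_res]
      exact ⟨trivial, h2⟩
    rw [h1, Scheme.basicOpen_zero] at h3
    exact h3

end Fermat.Agent.S26.Deg
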