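/-
S26, block DEG (architect helper279), leaf D6: a property stable under base change passes from
`φ ∣_ U` to the fibres over points of `U` and to smaller opens.
-/
import Fermat.Agent.S26.Deg.Tower

set_option autoImplicit false

universe u

open CategoryTheory CategoryTheory.Limits AlgebraicGeometry

namespace Fermat.Agent.S26.Deg

/-- D6a (`Deg/Restrict.lean`) -/
theorem pullback_snd_of_restrict (P : MorphismProperty Scheme.{u}) [P.IsStableUnderBaseChange]
    {X Y T : Scheme.{u}} (φ : Y ⟶ X) (U : X.Opens) (h : P (φ ∣_ U)) (a : T ⟶ X)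
    (ha : ∀ t, a t ∈ U) : P (pullback.snd φ a) := by
  have hr : Set.range a ⊆ Set.range U.ι := by
    rw [Scheme.Opens.range_ι]
    rintro _ ⟨t, rfl⟩
    exact ha t
  let a' : T ⟶ U := IsOpenImmersion.lift U.ι a hr
  have ha' : a' ≫ U.ι = a := IsOpenImmersion.lift_fac U.ι a hr
  have hR := isPullback_morphismRestrict φ U
  let l : pullback φ a ⟶ (φ ⁻¹ᵁ U).toScheme :=
    hR.lift (pullback.snd φ a ≫ a') (pullback.fst φ a) (by
      rw [Category.assoc, ha', pullback.condition])
  have hl1 : l ≫ (φ ∣_ U) = pullback.snd φ a ≫ a' := hR.lift_fst _ _ _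
  have hl2 : l ≫ (φ ⁻¹ᵁ U).ι = pullback.fst φ a := hR.lift_snd _ _ _
  have hbig : IsPullback (l ≫ (φ ⁻¹ᵁ U).ι) (pullback.snd φ a) φ (a' ≫ U.ι) := by
    rw [hl2, ha']
    exact IsPullback.of_hasPullback φ a
  have hleft : IsPullback l (pullback.snd φ a) (φ ∣_ U) a' :=
    IsPullback.of_right hbig hl1 hR.flip
  exact P.of_isPullback hleft h

/-- D6b (`Deg/Restrict.lean`) -/
theorem restrict_of_le (P : MorphismProperty Scheme.{u}) [P.IsStableUnderBaseChange]
    {X Y : Scheme.{u}} (φ : Y ⟶ X) {U V : X.Opens} (hUV : U ≤ V) (h : P (φ ∣_ V)) :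
    P (φ ∣_ U) := by
  have h1 : P (pullback.snd φ U.ι) :=
    pullback_snd_of_restrict P φ V h U.ι (fun t => hUV t.2)
  exact (P.cancel_left_of_respectsIso (pullbackRestrictIsoRestrict φ U).inv _).mpr h1

end Fermat.Agent.S26.Deg
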