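/-
S26, block DEG (architect helper279): G2, the fibres of a proper generically finite morphism over a
dense open have `dim_K 𝒪 = gdeg`.
-/
import Fermat.Agent.S26.Deg.GenFibre
import Fermat.Agent.S26.Deg.AlgCat
import Fermat.Agent.S26.Deg.FinApp
import Fermat.Agent.S26.Deg.Push
import Fermat.Agent.S26.Deg.Restrict

set_option autoImplicit false

universe u

open CategoryTheory CategoryTheory.Limits AlgebraicGeometry

namespace Fermat.Agent.S26.Deg

variable {K : Type u} [Field K]

theorem genericPoint_mem {X : Scheme.{u}} [IsIntegral X] (U : X.Opens) (hU : (U : Set X).Nonempty) :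
    genericPoint X ∈ U :=
  ((genericPoint_spec X).mem_open_set_iff U.isOpen).mpr (by simpa using hU)

/-- A1: the strong form of G2. -/
theorem exists_open_fibDim {X Y : Scheme.{u}} [IsIntegral X] [IsIntegral Y] (x : X ⟶ SK K)
    [LocallyOfFiniteType x] (φ : Y ⟶ X) [IsProper φ] (h : 0 < gdeg φ) :
    ∃ U : X.Opens, genericPoint X ∈ U ∧ IsFinite (φ ∣_ U) ∧
      ∀ a : SK K ⟶ X, a (cpt K) ∈ U → fibDim φ a = gdeg φ := by
  have hdom : Dom φ := dom_of_gdeg_pos φ h
  have hfib := preimage_genericPoint φ h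
  obtain ⟨V, hηV, hV⟩ := exists_isFinite_morphismRestrict_of_finite_preimage_singleton φ
    (genericPoint X) (by rw [hfib]; exact Set.finite_singleton _)
  obtain ⟨W, hW, hηW, hWV⟩ := exists_isAffineOpen_mem_and_subset hηV
  obtain ⟨hW', hfin⟩ := finite_app_of_isFinite_restrict φ V W hV hW hWV
  have hηW' : genericPoint Y ∈ φ ⁻¹ᵁ W := by
    change φ (genericPoint Y) ∈ W
    rw [hdom]
    exact hηW
  have : Nonempty W := ⟨⟨_, hηW⟩⟩
  have : Nonempty (φ ⁻¹ᵁ W) := ⟨⟨_, hηW'⟩⟩
  have : IsLocallyNoetherian X := LocallyOfFiniteType.isLocallyNoetherian x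
  have : IsNoetherianRing Γ(X, W) := IsLocallyNoetherian.component_noetherian ⟨W, hW⟩
  obtain ⟨b, hb0, hb⟩ := exists_ne_zero_finrank_eq_cat (φ.app W) hfin
    (X.germToFunctionField W).hom (Y.germToFunctionField (φ ⁻¹ᵁ W)).hom (ffMap φ hdom)
    (functionField_isFractionRing_of_isAffineOpen X W hW)
    (functionField_isFractionRing_of_isAffineOpen Y _ hW')
    (by ext s; exact ffMap_germ φ hdom W s)
  have hbW : X.basicOpen b ≤ W := X.basicOpen_le b
  refine ⟨X.basicOpen b, genericPoint_mem _ ?_, restrict_of_le @IsFinite φ (hbW.trans hWV) hV, ?_⟩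
  · rw [Set.nonempty_iff_ne_empty]
    intro h0
    exact hb0 ((basicOpen_eq_bot_iff b).1 (TopologicalSpace.Opens.ext h0))
  · intro a ha
    obtain ⟨α, γ, hpo, hα⟩ := fibre_isPushout φ W hW hW' a (hbW ha)
    rw [gdeg_of_dom φ hdom]
    exact hb K _ α γ _ hpo (hα b ha)

/-- G2 -/
theorem fibreNode : FibreNode K := by
  intro X Y _ _ x _ φ _ h
  obtain ⟨U, hη, -, hU⟩ := exists_open_fibDim x φ h
  exact ⟨U, ⟨_, hη⟩, hU⟩

end Fermat.Agent.S26.Deg
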