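/-
S26, block DEG, leaf D7: a finite etale scheme over an algebraically closed field `K` has `dim_K Γ`
sections.  Owner: helper50.
-/
import Fermat.Agent.S26.Deg.Tower

set_option autoImplicit false

universe u

open CategoryTheory CategoryTheory.Limits AlgebraicGeometry

namespace Fermat.Agent.S26.Deg

variable {K : Type u} [Field K]

/-- D7 (`Deg/Sections.lean`) -/
theorem card_sections [IsAlgClosed K] {T : Scheme.{u}} (t : T ⟶ SK K) [IsFinite t] [Etale t] :
    Nat.card {s : SK K ⟶ T // s ≫ t = 𝟙 _} = dimΓ t := by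
  have hT : IsAffine T := isAffine_of_isAffineHom t
  have hfin : t.appTop.hom.Finite := t.finite_appTop
  have het : t.appTop.hom.Etale := (HasRingHomProperty.iff_of_isAffine (P := @Etale)).1 inferInstance
  let ε : K ≃+* Γ(SK K, ⊤) := (Scheme.ΓSpecIso (CommRingCat.of K)).symm.commRingCatIsoToRingEquiv
  have hfin' : (algΓ t).Finite := hfin.comp (RingHom.Finite.of_surjective ε.toRingHom ε.surjective)
  have het' : (algΓ t).Etale := RingHom.Etale.respectsIso.2 _ ε het
  let : Algebra K Γ(T, ⊤) := (algΓ t).toAlgebra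
  have h1 : Module.Finite K Γ(T, ⊤) := hfin'
  have h2 : Algebra.Etale K Γ(T, ⊤) := het'
  have hart : IsArtinianRing Γ(T, ⊤) := isArtinian_of_tower K inferInstance
  have e := Algebra.FormallyEtale.equivPiOfIsSepClosed K Γ(T, ⊤)
  have hrank : dimΓ t = Nat.card (PrimeSpectrum Γ(T, ⊤)) := by
    have : Fintype (PrimeSpectrum Γ(T, ⊤)) := Fintype.ofFinite _
    have h3 : Module.finrank K Γ(T, ⊤) = Module.finrank K (PrimeSpectrum Γ(T, ⊤) → K) :=
      e.toLinearEquiv.finrank_eq
    rw [Module.finrank_fintype_fun_eq_card, ← Nat.card_eq_fintype_card] at h3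
    exact h3
  rw [hrank, Nat.card_congr (pointEquivClosedPoint t)]
  have hhom : T ≃ₜ PrimeSpectrum Γ(T, ⊤) := Scheme.homeoOfIso T.isoSpec
  have hdisc : DiscreteTopology T := hhom.symm.discreteTopology
  have hcl : closedPoints T = Set.univ := by
    ext x
    simp only [Set.mem_univ, iff_true]
    exact isClosed_discrete _
  rw [hcl, Nat.card_congr (Equiv.Set.univ T), Nat.card_congr hhom.toEquiv]

end Fermat.Agent.S26.Deg
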