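/-
S26, block DEG (architect helper279): G3, counting the `K`-points of the fibres.
-/
import Fermat.Agent.S26.Deg.Fibre
import Fermat.Agent.S26.Deg.Sections
import Fermat.Agent.S26.Deg.FibPts
import Fermat.Agent.S26.Deg.EtRes
import Fermat.Agent.S26.Deg.EtalePos

set_option autoImplicit false

universe u

open CategoryTheory CategoryTheory.Limits AlgebraicGeometry

namespace Fermat.Agent.S26.Deg

variable {K : Type u} [Field K]

/-- G3 -/
theorem countNode [IsAlgClosed K] : CountNode K := by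
  intro X Y _ _ x _ φ _ y hy
  obtain ⟨hdom, hpos⟩ := etalePosNode φ y hy
  obtain ⟨E, hyE, hEt⟩ := hy
  have hfib := preimage_genericPoint φ hpos
  obtain ⟨U₁, hη₁, hU₁⟩ := exists_open_etale_restrict φ E ⟨y, hyE⟩ hEt hfib
  obtain ⟨U₂, hη₂, hfin, hU₂⟩ := exists_open_fibDim x φ hpos
  refine ⟨U₁ ⊓ U₂, ⟨_, hη₁, hη₂⟩, fun a ha => ?_⟩
  have hall : ∀ t, a t ∈ U₁ ⊓ U₂ := by
    intro t
    rw [Subsingleton.elim t (cpt K)]
    exact ha
  have : IsFinite (pullback.snd φ a) :=
    pullback_snd_of_restrict @IsFinite φ U₂ hfin a (fun t => (hall t).2)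
  have : Etale (pullback.snd φ a) :=
    pullback_snd_of_restrict @Etale φ U₁ hU₁ a (fun t => (hall t).1)
  rw [card_fibre_eq, card_sections, ← hU₂ a ha.2]
  rfl

end Fermat.Agent.S26.Deg
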