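/-
S26, block DEG (architect helper279), leaf D11: `K`-points are dense (G5).
-/
import Fermat.Agent.S26.Deg.Tower

set_option autoImplicit false

universe u

open CategoryTheory CategoryTheory.Limits AlgebraicGeometry

namespace Fermat.Agent.S26.Deg

variable {K : Type u} [Field K]

/-- D11 (`Deg/Dense.lean`) -/
theorem denseNode [IsAlgClosed K] : DenseNode K := by
  intro X x _ U hU
  have : JacobsonSpace X := LocallyOfFiniteType.jacobsonSpace x
  have h1 : ((U : Set X) ∩ closedPoints X).Nonempty := by
    have h2 := JacobsonSpace.closure_inter_closedPoints_eq_closure U.isOpen.isLocallyClosed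
    by_contra h3
    rw [Set.not_nonempty_iff_eq_empty] at h3
    rw [h3, closure_empty] at h2
    exact hU.closure.ne_empty h2.symm
  obtain ⟨p, hpU, hp'⟩ := h1
  have hp : IsClosed {p} := hp'
  exact ⟨pointOfClosedPoint x p hp, pointOfClosedPoint_comp x p hp, by
    rw [pointOfClosedPoint_apply]; exact hpU⟩

end Fermat.Agent.S26.Deg
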