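/-
S26, block DEG (architect helper279): node SCALE, `deg (N τ) = #A[N](K) · deg τ`.
-/
import Fermat.Agent.S26.Deg.Count
import Fermat.Agent.S26.Deg.Dense

set_option autoImplicit false

universe u

open CategoryTheory CategoryTheory.Limits AlgebraicGeometry

namespace Fermat.Agent.S26.Deg

variable {K : Type u} [Field K]

theorem zpow_hom {𝔸 : AbVar K} {T : Scheme.{u}} {t : T ⟶ SK K} (τ : 𝔸.Pt t) (N : ℤ) :
    (τ ^ N).hom = τ.hom ≫ 𝔸.zmul N := by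
  have h1 : AbVar.Pt.comp τ.hom τ.hom_f 𝔸.idPt = τ := by
    apply AbVar.Pt.ext
    rw [AbVar.Pt.comp_hom]
    exact Category.comp_id _
  have h2 := map_zpow (AbVar.Pt.comp τ.hom τ.hom_f) 𝔸.idPt N
  rw [h1] at h2
  rw [← h2, AbVar.Pt.comp_hom]
  rfl

theorem zmul_f (𝔸 : AbVar K) (N : ℤ) : 𝔸.zmul N ≫ 𝔸.f = 𝔸.f := (𝔸.idPt ^ N).hom_f

theorem isProper_zmul (𝔸 : AbVar K) (N : ℤ) : IsProper (𝔸.zmul N) := by
  have : IsProper (𝔸.zmul N ≫ 𝔸.f) := by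
    rw [zmul_f]
    infer_instance
  exact IsProper.of_comp (𝔸.zmul N) 𝔸.f

/-- the number of `N`-th roots of an element which has one -/
theorem card_roots {G : Type*} [CommGroup G] (N : ℕ) (a b₀ : G) (h : b₀ ^ N = a) :
    Nat.card {b : G // b ^ N = a} = Nat.card {x : G // x ^ N = 1} := by
  refine Nat.card_congr ⟨fun b => ⟨b.1 * b₀⁻¹, by rw [mul_pow, b.2, inv_pow, h, mul_inv_cancel]⟩,
    fun x => ⟨x.1 * b₀, by rw [mul_pow, x.2, h, one_mul]⟩, fun b => ?_, fun x => ?_⟩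
  · ext; simp
  · ext; simp

theorem gdeg_zmul [IsAlgClosed K] (𝔸 : AbVar K) (hZ : ZmulEtaleNode 𝔸) (N : ℕ) (hN : (N : K) ≠ 0) :
    gdeg (𝔸.zmul N) = Nat.card {x : 𝔸.KPt // x ^ N = 1} := by
  have hEt : EtaleAt (𝔸.zmul N) 𝔸.o := hZ N (by simpa using hN)
  have := isProper_zmul 𝔸 N
  obtain ⟨U, hU, hcount⟩ := countNode 𝔸.f (𝔸.zmul N) 𝔸.o hEt
  obtain ⟨a, ha, haU⟩ := denseNode 𝔸.f U hU
  have hpos := (etalePosNode (𝔸.zmul N) 𝔸.o hEt).2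
  rw [← hcount a haU] at hpos ⊢
  let a' : 𝔸.KPt := AbVar.Pt.mk a ha
  have e : {b : SK K ⟶ 𝔸.A // b ≫ 𝔸.zmul N = a} ≃ {b : 𝔸.KPt // b ^ N = a'} :=
    { toFun := fun b => ⟨AbVar.Pt.mk b.1 (by
          rw [← zmul_f 𝔸 N, ← Category.assoc, b.2]; exact ha), by
          apply AbVar.Pt.ext
          rw [← zpow_natCast, zpow_hom]
          exact b.2⟩
      invFun := fun b => ⟨b.1.hom, by
          rw [← zpow_hom, zpow_natCast, b.2]
          rfl⟩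
      left_inv := fun b => rfl
      right_inv := fun b => rfl }
  rw [Nat.card_congr e] at hpos ⊢
  obtain ⟨b₀⟩ := (Nat.card_pos_iff.1 hpos).1
  exact card_roots N a' b₀.1 b₀.2

/-- SCALE -/
theorem scaleNode [IsAlgClosed K] (𝔸 : AbVar K) (hZ : ZmulEtaleNode 𝔸) : ScaleNode 𝔸 := by
  intro B N hN hB
  have h1 : (B.scale N).deg = gdeg (B.τ.hom ≫ 𝔸.zmul N) := by
    unfold Based.deg
    rw [← zpow_hom]
    rfl
  have hd1 : Dom B.τ.hom := (etalePosNode B.τ.hom B.pt₀ hB).1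
  have hd2 : Dom (𝔸.zmul N) := (etalePosNode (𝔸.zmul N) 𝔸.o (hZ N (by simpa using hN))).1
  rw [h1, gdeg_comp _ _ hd1 hd2, gdeg_zmul 𝔸 hZ N hN, mul_comm]
  rfl

end Fermat.Agent.S26.Deg
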