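/-
S26, block DEG (architect helper279): EXPORTS.

* `towerNode : TowerNode`                                   (`Deg/Tower.lean`)
* `deg_eq_of_iso`  (field `deg_eq` of `IsoNode`)            (`Deg/Tower.lean`)
* `fibreNode : FibreNode K`                                 (`Deg/Fibre.lean`)
* `countNode [IsAlgClosed K] : CountNode K`                 (`Deg/Count.lean`)
* `etalePosNode : EtalePosNode`                             (`Deg/EtalePos.lean`)
* `denseNode [IsAlgClosed K] : DenseNode K`                 (`Deg/Dense.lean`)
* `scaleNode [IsAlgClosed K] 𝔸 : ZmulEtaleNode 𝔸 → ScaleNode 𝔸`   (`Deg/Scale.lean`)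
* `posNode 𝔸 : PosNode 𝔸`                                   (here)
-/
import Fermat.Agent.S26.Deg.Scale

set_option autoImplicit false

universe u

open CategoryTheory CategoryTheory.Limits AlgebraicGeometry

namespace Fermat.Agent.S26.Deg

variable {K : Type u} [Field K]

/-- POS -/
theorem posNode (𝔸 : AbVar K) : PosNode 𝔸 := fun B hB => (etalePosNode B.τ.hom B.pt₀ hB).2

end Fermat.Agent.S26.Deg
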